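import Fermat.Agent.Petersson.Pet
import Fermat.Agent.MOD.CuspCoeff
import Mathlib.Analysis.InnerProductSpace.JointEigenspace

/-!
# The Petersson inner product on spaces of cusp forms

* `pet_heckeT_left`: `T_l` is self-adjoint on `S_k(Γ₀(N))` for `l` prime to `N`;
* `heckeTLin_iSup_iInf_eigenspace`: the `T_l`, `l ∤ N`, are simultaneously diagonalisable;
* `isSymmetric_of_mem_heckeAlgebra`, `isReduced_heckeAlgebra`: the Hecke algebra away from the
  level consists of self-adjoint operators and is reduced;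
* `petOrtho`, `isCompl_petOrtho`: orthogonal complements;
* `pet_slash_fricke_left`, `pet_heckeU_left`, `pet_slash_heckeDiag_left`, `pet_trace_right`.
-/

noncomputable section

open MeasureTheory UpperHalfPlane Matrix.SpecialLinearGroup CongruenceSubgroup
open scoped MatrixGroups ModularForm ComplexConjugate

namespace Fermat.Agent.Petersson

variable {Γ : Subgroup SL(2, ℤ)} {k : ℤ}

/-! ### Cusp forms are nice -/

theorem cuspForm_slash_eq {F : Type*} [FunLike F ℍ ℂ] [CuspFormClass F Γ k] (f : F) {γ : SL(2, ℤ)}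
    (hγ : γ ∈ Γ) : (f : ℍ → ℂ) ∣[k] γ = f := by
  rw [ModularForm.SL_slash]
  exact SlashInvariantFormClass.slash_action_eq f _ (Subgroup.mem_map_of_mem _ hγ)

theorem isNice_cuspForm [Γ.FiniteIndex] {F : Type*} [FunLike F ℍ ℂ] [CuspFormClass F Γ k]
    (f : F) : IsNice k (f : ℍ → ℂ) := by
  refine ⟨(CuspFormClass.holo f).continuous, ?_, Γ, inferInstance, fun γ hγ => cuspForm_slash_eq f hγ⟩
  exact CuspFormClass.petersson_bounded_left k (Γ : Subgroup (GL (Fin 2) ℝ)) f f

variable (Γ k)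

/-- The Petersson inner product on `S_k(Γ)`, as a `Core` (not an instance). -/
@[reducible]
def peterssonCore [Γ.FiniteIndex] : InnerProductSpace.Core ℂ (CuspForm Γ k) where
  inner f g := pet k f g
  conj_inner_symm f g := pet_conj_symm (isNice_cuspForm f) (isNice_cuspForm g)
  re_inner_nonneg f := pet_self_nonneg (isNice_cuspForm f)
  add_left f g h := by
    show pet k (⇑(f + g)) h = pet k f h + pet k g h
    rw [FunLike.coe_add]
    exact pet_add_left (isNice_cuspForm f) (isNice_cuspForm g) (isNice_cuspForm h)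
  smul_left f g r := by
    show pet k (⇑(r • f)) g = conj r * pet k f g
    rw [FunLike.coe_smul]
    exact pet_smul_left (isNice_cuspForm f) (isNice_cuspForm g) r
  definite f h := DFunLike.coe_injective (eq_zero_of_pet_self (isNice_cuspForm f) h)

variable {Γ k}

theorem pet_self_eq_zero_iff [Γ.FiniteIndex] (f : CuspForm Γ k) :
    pet k f f = 0 ↔ f = 0 :=
  ⟨fun h => DFunLike.coe_injective (eq_zero_of_pet_self (isNice_cuspForm f) h), fun h => by
    rw [h, FunLike.coe_zero]; exact pet_zero_left (IsNice.zero k)⟩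

/-- An operator is Petersson self-adjoint. -/
def IsPetSymm (T : Module.End ℂ (CuspForm Γ k)) : Prop :=
  ∀ f g : CuspForm Γ k, pet k (T f) g = pet k f (T g)

theorem IsPetSymm.isSymmetric [Γ.FiniteIndex] {T : Module.End ℂ (CuspForm Γ k)} (h : IsPetSymm T) :
    let : NormedAddCommGroup (CuspForm Γ k) :=
      @InnerProductSpace.Core.toNormedAddCommGroup ℂ _ _ _ _ (peterssonCore Γ k)
    let : InnerProductSpace ℂ (CuspForm Γ k) := InnerProductSpace.ofCore (peterssonCore Γ k).toCore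
    LinearMap.IsSymmetric T :=
  h

/-- Commuting self-adjoint operators are simultaneously diagonalisable. -/
theorem iSup_iInf_eigenspace_eq_top [Γ.FiniteIndex] [FiniteDimensional ℂ (CuspForm Γ k)]
    {ι : Type*} {T : ι → Module.End ℂ (CuspForm Γ k)} (hT : ∀ i, IsPetSymm (T i))
    (hc : ∀ i j, Commute (T i) (T j)) :
    ⨆ χ : ι → ℂ, ⨅ i, Module.End.eigenspace (T i) (χ i) = ⊤ := by
  let : NormedAddCommGroup (CuspForm Γ k) :=
    @InnerProductSpace.Core.toNormedAddCommGroup ℂ _ _ _ _ (peterssonCore Γ k)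
  let : InnerProductSpace ℂ (CuspForm Γ k) := InnerProductSpace.ofCore (peterssonCore Γ k).toCore
  exact LinearMap.IsSymmetric.iSup_iInf_eq_top_of_commute (fun i => (hT i).isSymmetric)
    fun i j _ => hc i j

/-- Eigenvalues of self-adjoint operators are real. -/
theorem IsPetSymm.conj_eigenvalue [Γ.FiniteIndex] {T : Module.End ℂ (CuspForm Γ k)}
    (h : IsPetSymm T) {f : CuspForm Γ k} (hf : f ≠ 0) {c : ℂ} (hTf : T f = c • f) :
    conj c = c := by
  have := h f f
  rw [hTf, FunLike.coe_smul, pet_smul_left (isNice_cuspForm f) (isNice_cuspForm f),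
    pet_smul_right (isNice_cuspForm f) (isNice_cuspForm f)] at this
  exact mul_right_cancel₀ (fun h0 => hf ((pet_self_eq_zero_iff f).mp h0)) this

/-- The Petersson orthogonal of a subspace. -/
def petOrtho [Γ.FiniteIndex] (V : Submodule ℂ (CuspForm Γ k)) : Submodule ℂ (CuspForm Γ k) where
  carrier := {g | ∀ f ∈ V, pet k f g = 0}
  zero_mem' f _ := by rw [FunLike.coe_zero]; exact pet_zero_right (isNice_cuspForm f)
  add_mem' {g h} hg hh f hf := by
    rw [FunLike.coe_add, pet_add_right (isNice_cuspForm f) (isNice_cuspForm g) (isNice_cuspForm h),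
      hg f hf, hh f hf, add_zero]
  smul_mem' c g hg f hf := by
    rw [FunLike.coe_smul, pet_smul_right (isNice_cuspForm f) (isNice_cuspForm g),
      hg f hf, mul_zero]

theorem mem_petOrtho [Γ.FiniteIndex] {V : Submodule ℂ (CuspForm Γ k)} {g : CuspForm Γ k} :
    g ∈ petOrtho V ↔ ∀ f ∈ V, pet k f g = 0 :=
  Iff.rfl

theorem isCompl_petOrtho [Γ.FiniteIndex] [FiniteDimensional ℂ (CuspForm Γ k)]
    (V : Submodule ℂ (CuspForm Γ k)) : IsCompl V (petOrtho V) := by
  let : NormedAddCommGroup (CuspForm Γ k) :=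
    @InnerProductSpace.Core.toNormedAddCommGroup ℂ _ _ _ _ (peterssonCore Γ k)
  let : InnerProductSpace ℂ (CuspForm Γ k) := InnerProductSpace.ofCore (peterssonCore Γ k).toCore
  have : petOrtho V = Vᗮ := by ext g; exact Iff.rfl
  rw [this]
  exact V.isCompl_orthogonal

theorem IsPetSymm.petOrtho_le_comap [Γ.FiniteIndex] {T : Module.End ℂ (CuspForm Γ k)}
    (h : IsPetSymm T) {V : Submodule ℂ (CuspForm Γ k)} (hV : V ≤ V.comap T) :
    petOrtho V ≤ (petOrtho V).comap T := fun g hg f hf => by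
  rw [← h f g]
  exact hg _ (hV hf)

/-! ### Changing the representative in a double coset -/

theorem isRatGL_of_entries {α : GL (Fin 2) ℝ} (h : ∀ i j, ∃ q : ℚ, α i j = q) : IsRatGL α := by
  choose A hA using h
  have hmap : (Rat.castHom ℝ).mapMatrix (Matrix.of A) = (α : Matrix (Fin 2) (Fin 2) ℝ) := by
    ext i j
    simp [hA i j]
  have hdet : (Matrix.of A).det ≠ 0 := fun h0 => α.det_ne_zero (by
    rw [← hmap, ← RingHom.map_det, h0, map_zero])
  exact ⟨Matrix.GeneralLinearGroup.mkOfDetNeZero _ hdet, Units.ext hmap⟩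

theorem isRatGL_mapGL (γ : SL(2, ℤ)) : IsRatGL (mapGL ℝ γ) :=
  isRatGL_of_entries fun i j => ⟨(γ i j : ℚ), by simp⟩

theorem isRatGL_heckeMatrix (p j : ℕ) : IsRatGL (ModularForm.heckeMatrix p j) := by
  rcases eq_or_ne p 0 with rfl | hp
  · exact ⟨1, by simp⟩
  · refine isRatGL_of_entries fun i l => ?_
    rw [ModularForm.val_heckeMatrix hp]
    fin_cases i <;> fin_cases l <;>
      [exact ⟨1, by simp⟩; exact ⟨j, by simp⟩; exact ⟨0, by simp⟩; exact ⟨p, by simp⟩]

theorem isRatGL_heckeDiagMatrix (p : ℕ) : IsRatGL (ModularForm.heckeDiagMatrix p) := by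
  rcases eq_or_ne p 0 with rfl | hp
  · exact ⟨1, by simp⟩
  · refine isRatGL_of_entries fun i l => ?_
    rw [ModularForm.val_heckeDiagMatrix hp]
    fin_cases i <;> fin_cases l <;>
      [exact ⟨p, by simp⟩; exact ⟨0, by simp⟩; exact ⟨0, by simp⟩; exact ⟨1, by simp⟩]

/-- Right multiplication by an element of the group does not change the pairing. -/
theorem pet_slash_mul_right {F G : ℍ → ℂ} (hF : IsNice k F) (hG : IsNice k G)
    {α : GL (Fin 2) ℝ} (hα : IsRatGL α) (hdet : 0 < α.det.val) {γ : SL(2, ℤ)}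
    (hγ : F ∣[k] γ = F) :
    pet k F (G ∣[k] (α * mapGL ℝ γ)) = pet k F (G ∣[k] α) := by
  have h := pet_slash_slash hF (hG.slash hα hdet) (isRatGL_mapGL γ) (by simp)
  rw [show F ∣[k] (mapGL ℝ γ : GL (Fin 2) ℝ) = F from hγ] at h
  rw [SlashAction.slash_mul, h]
  simp

/-! ### Hecke operators on `Γ₀(N)` -/

variable {N : ℕ} [NeZero N]

theorem mapGL_val (γ : SL(2, ℤ)) :
    ((mapGL ℝ γ : GL (Fin 2) ℝ) : Matrix (Fin 2) (Fin 2) ℝ) =
      (γ : Matrix (Fin 2) (Fin 2) ℤ).map (Int.cast : ℤ → ℝ) := by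
  ext i j; simp

theorem heckeMatrix_eq_mul_T_pow {p : ℕ} (hp : p ≠ 0) (j : ℕ) :
    ModularForm.heckeMatrix p j
      = ModularForm.heckeMatrix p 0 * mapGL ℝ (ModularGroup.T ^ (j : ℤ)) := by
  apply Units.ext
  rw [Units.val_mul, ModularForm.val_heckeMatrix hp, ModularForm.val_heckeMatrix hp, mapGL_val,
    ModularGroup.coe_T_zpow]
  ext a b; fin_cases a <;> fin_cases b <;> simp [Matrix.mul_apply, Fin.sum_univ_two]

omit [NeZero N] in
theorem T_zpow_mem_Gamma0 (n : ℤ) : ModularGroup.T ^ n ∈ Gamma0 N := by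
  simp [Gamma0_mem, ModularGroup.coe_T_zpow]

theorem pet_slash_heckeMatrix (f g : CuspForm (Gamma0 N) k) {p : ℕ} (hp : p ≠ 0) (j : ℕ) :
    pet k f ((g : ℍ → ℂ) ∣[k] ModularForm.heckeMatrix p j)
      = pet k f ((g : ℍ → ℂ) ∣[k] ModularForm.heckeMatrix p 0) := by
  rw [heckeMatrix_eq_mul_T_pow hp]
  exact pet_slash_mul_right (isNice_cuspForm f) (isNice_cuspForm g) (isRatGL_heckeMatrix p 0)
    (ModularForm.det_heckeMatrix_pos p 0) (cuspForm_slash_eq f (T_zpow_mem_Gamma0 _))

theorem pet_heckeMatrix_zero_eq_heckeDiag (f g : CuspForm (Gamma0 N) k) {l : ℕ} (hl : l ≠ 0)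
    (hlN : l.Coprime N) :
    pet k f ((g : ℍ → ℂ) ∣[k] ModularForm.heckeMatrix l 0)
      = pet k f ((g : ℍ → ℂ) ∣[k] ModularForm.heckeDiagMatrix l) := by
  obtain ⟨u, v, huv⟩ := (Nat.isCoprime_iff_coprime.mpr hlN : IsCoprime (l : ℤ) (N : ℤ))
  let γ : SL(2, ℤ) := ⟨!![(l : ℤ), -v; (N : ℤ), u], by
    rw [Matrix.det_fin_two_of]; linear_combination huv⟩
  let δ : SL(2, ℤ) := ⟨!![(1 : ℤ), -v; (N : ℤ), (l : ℤ) * u], by
    rw [Matrix.det_fin_two_of]; linear_combination huv⟩
  have hγ : γ ∈ Gamma0 N := Gamma0_mem.mpr (by simp [γ])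
  have hδ : δ ∈ Gamma0 N := Gamma0_mem.mpr (by simp [δ])
  have h : (mapGL ℝ γ : GL (Fin 2) ℝ) * ModularForm.heckeMatrix l 0
      = ModularForm.heckeDiagMatrix l * mapGL ℝ δ := by
    apply Units.ext
    rw [Units.val_mul, Units.val_mul, ModularForm.val_heckeMatrix hl,
      ModularForm.val_heckeDiagMatrix hl, mapGL_val, mapGL_val]
    ext a b; fin_cases a <;> fin_cases b <;>
      simp [γ, δ, Matrix.mul_apply, Fin.sum_univ_two, mul_comm]
  have hg : (g : ℍ → ℂ) ∣[k] (mapGL ℝ γ : GL (Fin 2) ℝ) = g := cuspForm_slash_eq g hγ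
  have e : (g : ℍ → ℂ) ∣[k] ModularForm.heckeMatrix l 0
      = (g : ℍ → ℂ) ∣[k] (ModularForm.heckeDiagMatrix l * mapGL ℝ δ) := by
    rw [← h, SlashAction.slash_mul, hg]
  rw [e]
  exact pet_slash_mul_right (isNice_cuspForm f) (isNice_cuspForm g) (isRatGL_heckeDiagMatrix l)
    (ModularForm.det_heckeDiagMatrix_pos l) (cuspForm_slash_eq f hδ)

theorem isNice_slash_heckeMatrix (g : CuspForm (Gamma0 N) k) (p j : ℕ) :
    IsNice k ((g : ℍ → ℂ) ∣[k] ModularForm.heckeMatrix p j) :=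
  (isNice_cuspForm g).slash (isRatGL_heckeMatrix p j) (ModularForm.det_heckeMatrix_pos p j)

theorem isNice_slash_heckeDiag (g : CuspForm (Gamma0 N) k) (p : ℕ) :
    IsNice k ((g : ℍ → ℂ) ∣[k] ModularForm.heckeDiagMatrix p) :=
  (isNice_cuspForm g).slash (isRatGL_heckeDiagMatrix p) (ModularForm.det_heckeDiagMatrix_pos p)

theorem pet_heckeU_right (f g : CuspForm (Gamma0 N) k) {p : ℕ} (hp : p ≠ 0) :
    pet k f (ModularForm.heckeU k p g)
      = p * pet k f ((g : ℍ → ℂ) ∣[k] ModularForm.heckeMatrix p 0) := by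
  rw [ModularForm.heckeU_def, pet_sum_right _ (fun j _ => isNice_slash_heckeMatrix g p j)
    (isNice_cuspForm f), Finset.sum_congr rfl fun j _ => pet_slash_heckeMatrix f g hp j]
  simp

theorem adjugate_heckeMatrix_zero {p : ℕ} (hp : p ≠ 0) :
    (ModularForm.heckeDiagMatrix p : Matrix (Fin 2) (Fin 2) ℝ)
      = (ModularForm.heckeMatrix p 0 : Matrix (Fin 2) (Fin 2) ℝ).adjugate := by
  rw [ModularForm.val_heckeMatrix hp, ModularForm.val_heckeDiagMatrix hp, Matrix.adjugate_fin_two_of]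
  simp

theorem adjugate_heckeDiag {p : ℕ} (hp : p ≠ 0) :
    (ModularForm.heckeMatrix p 0 : Matrix (Fin 2) (Fin 2) ℝ)
      = (ModularForm.heckeDiagMatrix p : Matrix (Fin 2) (Fin 2) ℝ).adjugate := by
  rw [ModularForm.val_heckeMatrix hp, ModularForm.val_heckeDiagMatrix hp, Matrix.adjugate_fin_two_of]
  simp

/-- The adjoint of `U_p` is `p` times slashing by `diag (p, 1)`. -/
theorem pet_heckeU_left (f g : CuspForm (Gamma0 N) k) {p : ℕ} (hp : p ≠ 0) :
    pet k (ModularForm.heckeU k p f) g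
      = p * pet k f ((g : ℍ → ℂ) ∣[k] ModularForm.heckeDiagMatrix p) := by
  have hU : IsNice k (ModularForm.heckeU k p f) :=
    IsNice.sum _ fun j _ => isNice_slash_heckeMatrix f p j
  rw [← pet_conj_symm hU (isNice_cuspForm g), pet_heckeU_right g f hp, map_mul, map_natCast,
    pet_conj_symm (isNice_slash_heckeMatrix f p 0) (isNice_cuspForm g),
    pet_slash_left (isNice_cuspForm f) (isNice_cuspForm g) (isRatGL_heckeMatrix p 0)
      (isRatGL_heckeDiagMatrix p) (ModularForm.det_heckeMatrix_pos p 0)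
      (adjugate_heckeMatrix_zero hp)]

theorem pet_slash_heckeDiag_left (f g : CuspForm (Gamma0 N) k) {p : ℕ} (hp : p ≠ 0) :
    pet k ((f : ℍ → ℂ) ∣[k] ModularForm.heckeDiagMatrix p) g
      = pet k f ((g : ℍ → ℂ) ∣[k] ModularForm.heckeMatrix p 0) :=
  pet_slash_left (isNice_cuspForm f) (isNice_cuspForm g) (isRatGL_heckeDiagMatrix p)
    (isRatGL_heckeMatrix p 0) (ModularForm.det_heckeDiagMatrix_pos p) (adjugate_heckeDiag hp)

/-- `T_l` is self-adjoint for `l` prime to the level. -/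
theorem pet_heckeT_left (f g : CuspForm (Gamma0 N) k) {l : ℕ} (hl : l ≠ 0) (hlN : l.Coprime N) :
    pet k (ModularForm.heckeT k l f) g = pet k f (ModularForm.heckeT k l g) := by
  have hU : ∀ f : CuspForm (Gamma0 N) k, IsNice k (ModularForm.heckeU k l f) := fun f =>
    IsNice.sum _ fun j _ => isNice_slash_heckeMatrix f l j
  rw [ModularForm.heckeT_eq_heckeU_add, ModularForm.heckeT_eq_heckeU_add,
    pet_add_left (hU f) (isNice_slash_heckeDiag f l) (isNice_cuspForm g),
    pet_add_right (isNice_cuspForm f) (hU g) (isNice_slash_heckeDiag g l),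
    pet_heckeU_left f g hl, pet_heckeU_right f g hl, pet_slash_heckeDiag_left f g hl,
    pet_heckeMatrix_zero_eq_heckeDiag f g hl hlN]

theorem isPetSymm_heckeTLin {l : ℕ} (hl : l.Prime) (hlN : ¬ l ∣ N) :
    IsPetSymm (CuspForm.heckeTLin (N := N) k hl hlN) := fun f g => by
  rw [CuspForm.coe_heckeTLin_apply, CuspForm.coe_heckeTLin_apply]
  exact pet_heckeT_left f g hl.ne_zero (hl.coprime_iff_not_dvd.mpr hlN)

/-- The `T_l`, `l ∤ N`, are simultaneously diagonalisable. -/
theorem heckeTLin_iSup_iInf_eigenspace :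
    ⨆ χ : {l : ℕ // l.Prime ∧ ¬ l ∣ N} → ℂ,
      ⨅ l : {l : ℕ // l.Prime ∧ ¬ l ∣ N},
        Module.End.eigenspace (CuspForm.heckeTLin (N := N) k l.2.1 l.2.2) (χ l) = ⊤ := by
  have := MOD.cuspForm_finiteDimensional (N := N) (k := k)
  exact iSup_iInf_eigenspace_eq_top (fun l => isPetSymm_heckeTLin l.2.1 l.2.2)
    fun i j => CuspForm.heckeTLin_comm k i.2.1 i.2.2 j.2.1 j.2.2

theorem qCoeff_eigenvalue_real {f : CuspForm (Gamma0 N) k} (hf : f ≠ 0) {l : ℕ} (hl : l.Prime)
    (hlN : ¬ l ∣ N) {c : ℂ} (h : CuspForm.heckeTLin k hl hlN f = c • f) : conj c = c :=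
  (isPetSymm_heckeTLin hl hlN).conj_eigenvalue hf h

/-- Every element of the Hecke algebra away from the level is self-adjoint. -/
theorem isPetSymm_of_mem_heckeAlgebra {S : Set ℕ} (hS : ∀ q : ℕ, q.Prime → q ∣ N → q ∈ S)
    {T : Module.End ℂ (CuspForm (Gamma0 N) k)} (hT : T ∈ CuspForm.heckeAlgebra N k S) :
    IsPetSymm T := by
  have comm : ∀ A ∈ CuspForm.heckeAlgebra N k S, ∀ B ∈ CuspForm.heckeAlgebra N k S,
      A * B = B * A := fun A hA B hB => by
    have := IsMulCommutative.is_comm.comm (⟨A, hA⟩ : CuspForm.heckeAlgebra N k S) ⟨B, hB⟩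
    exact congrArg Subtype.val this
  induction hT using Algebra.adjoin_induction with
  | mem T hT =>
    rcases hT with ⟨l, hl, hlN, -, rfl⟩ | ⟨q, hqN, hq, hqS, rfl⟩
    · exact isPetSymm_heckeTLin hl hlN
    · exact absurd (hS q hq hqN) hqS
  | algebraMap n =>
    intro f g
    simp only [Module.algebraMap_end_apply]
    rw [← Int.cast_smul_eq_zsmul ℂ, ← Int.cast_smul_eq_zsmul ℂ, FunLike.coe_smul,
      FunLike.coe_smul, pet_smul_left (isNice_cuspForm f) (isNice_cuspForm g),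
      pet_smul_right (isNice_cuspForm f) (isNice_cuspForm g), map_intCast]
  | add A B _ _ hA hB =>
    intro f g
    rw [LinearMap.add_apply, LinearMap.add_apply, FunLike.coe_add, FunLike.coe_add,
      pet_add_left (isNice_cuspForm (A f)) (isNice_cuspForm (B f)) (isNice_cuspForm g),
      pet_add_right (isNice_cuspForm f) (isNice_cuspForm (A g)) (isNice_cuspForm (B g)),
      hA f g, hB f g]
  | mul A B hA' hB' hA hB =>
    intro f g
    rw [Module.End.mul_apply, hA (B f) g, hB f (A g), ← Module.End.mul_apply,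
      comm B hB' A hA', Module.End.mul_apply]

/-- The Hecke algebra away from the level is reduced. -/
theorem isReduced_heckeAlgebra {S : Set ℕ} (hS : ∀ q : ℕ, q.Prime → q ∣ N → q ∈ S) :
    IsReduced (CuspForm.heckeAlgebra N k S) := by
  rw [isReduced_iff_pow_one_lt 2 one_lt_two]
  intro T hT
  have hsym := isPetSymm_of_mem_heckeAlgebra hS T.2
  apply Subtype.ext
  apply LinearMap.ext
  intro f
  have h2 : (T : Module.End ℂ (CuspForm (Gamma0 N) k)) ((T : Module.End ℂ _) f) = 0 := by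
    have := congrArg Subtype.val hT
    rw [SubmonoidClass.coe_pow, sq] at this
    simpa using LinearMap.congr_fun this f
  have := hsym f ((T : Module.End ℂ (CuspForm (Gamma0 N) k)) f)
  rw [h2, FunLike.coe_zero, pet_zero_right (isNice_cuspForm f)] at this
  simpa using (pet_self_eq_zero_iff _).mp this

/-! ### Fricke involution and trace -/

/-- The Fricke matrix. -/
def frickeGL (N : ℕ) [NeZero N] : GL (Fin 2) ℝ :=
  Matrix.GeneralLinearGroup.mkOfDetNeZero !![0, -1; (N : ℝ), 0]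
    (by rw [Matrix.det_fin_two_of]; simpa using NeZero.ne N)

/-- The adjoint of the Fricke operator is `(-1)^k` times itself. -/
theorem pet_slash_fricke_left (f g : CuspForm (Gamma0 N) k) :
    pet k ((f : ℍ → ℂ) ∣[k] frickeGL N) g
      = (-1) ^ k * pet k f ((g : ℍ → ℂ) ∣[k] frickeGL N) := by
  have hv : (frickeGL N : Matrix (Fin 2) (Fin 2) ℝ) = !![0, -1; (N : ℝ), 0] := rfl
  have hrat : IsRatGL (frickeGL N) := isRatGL_of_entries fun i j => by
    rw [hv]
    fin_cases i <;> fin_cases j <;>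
      [exact ⟨0, by simp⟩; exact ⟨-1, by simp⟩; exact ⟨N, by simp⟩; exact ⟨0, by simp⟩]
  have hdet : 0 < (frickeGL N).det.val := by
    rw [Matrix.GeneralLinearGroup.val_det_apply, hv, Matrix.det_fin_two_of]
    simp [Nat.pos_of_ne_zero (NeZero.ne N)]
  have hneg : (-1 : GL (Fin 2) ℝ) = Matrix.GeneralLinearGroup.scalar (Fin 2) (-1) := by
    ext i j; fin_cases i <;> fin_cases j <;> simp
  have hr : IsRatGL (frickeGL N * -1) :=
    hrat.mul (isRatGL_of_entries fun i j => ⟨if i = j then -1 else 0, by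
      rw [hneg]; fin_cases i <;> fin_cases j <;> simp⟩)
  rw [pet_slash_left (isNice_cuspForm f) (isNice_cuspForm g) hrat hr hdet (by
      rw [Units.val_mul, hv, Matrix.adjugate_fin_two_of, Units.val_neg, Units.val_one]
      simp)]
  rw [SlashAction.slash_mul, hneg, slash_scalar,
    pet_smul_right (isNice_cuspForm f) ((isNice_cuspForm g).slash hrat hdet)]
  congr 1
  rw [Units.val_neg, Units.val_one, Complex.ofReal_neg, Complex.ofReal_one,
    zpow_sub₀ (by norm_num : (-1 : ℂ) ≠ 0)]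
  norm_num

omit [NeZero N] in
/-- The trace is adjoint to inclusion, up to the index. -/
theorem pet_trace_right {Δ : Subgroup SL(2, ℤ)} [Δ.FiniteIndex] [Γ.FiniteIndex]
    [(Δ : Subgroup (GL (Fin 2) ℝ)).IsFiniteRelIndex (Γ : Subgroup (GL (Fin 2) ℝ))]
    (g : CuspForm Γ k) (f : CuspForm Δ k) :
    pet k g (CuspForm.trace (𝒢 := (Δ : Subgroup (GL (Fin 2) ℝ)))
        (Γ : Subgroup (GL (Fin 2) ℝ)) f)
      = (Nat.card ((Γ : Subgroup (GL (Fin 2) ℝ)) ⧸
          (Δ : Subgroup (GL (Fin 2) ℝ)).subgroupOf (Γ : Subgroup (GL (Fin 2) ℝ))) : ℂ)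
        * pet k g f := by
  let := Fintype.ofFinite ((Γ : Subgroup (GL (Fin 2) ℝ)) ⧸
      (Δ : Subgroup (GL (Fin 2) ℝ)).subgroupOf (Γ : Subgroup (GL (Fin 2) ℝ)))
  have key : ∀ q, IsNice k (SlashInvariantForm.quotientFunc (𝒢 := (Δ : Subgroup (GL (Fin 2) ℝ)))
        (ℋ := (Γ : Subgroup (GL (Fin 2) ℝ))) f q) ∧
      pet k g (SlashInvariantForm.quotientFunc (𝒢 := (Δ : Subgroup (GL (Fin 2) ℝ)))
        (ℋ := (Γ : Subgroup (GL (Fin 2) ℝ))) f q) = pet k g f := by
    intro q
    induction q using Quotient.inductionOn with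
    | h r =>
      obtain ⟨γ, hγ, hr⟩ := r.2
      have hr' : r.val⁻¹ = mapGL ℝ γ⁻¹ := by rw [map_inv, hr]
      have hd : (0 : ℝ) < (mapGL ℝ γ⁻¹ : GL (Fin 2) ℝ).det.val := by
        rw [det_mapGL]; simp
      rw [SlashInvariantForm.quotientFunc_mk, hr']
      refine ⟨(isNice_cuspForm f).slash (isRatGL_mapGL _) hd, ?_⟩
      have h2 := pet_slash_mul_right (isNice_cuspForm g) (isNice_cuspForm f) (α := 1)
        ⟨1, map_one _⟩ (by simp) (cuspForm_slash_eq g (inv_mem hγ))
      simpa using h2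
  rw [CuspForm.coe_trace, pet_sum_right _ (fun q _ => (key q).1) (isNice_cuspForm g),
    Finset.sum_congr rfl fun q _ => (key q).2, Finset.sum_const, Finset.card_univ,
    Nat.card_eq_fintype_card, nsmul_eq_mul]

end Fermat.Agent.Petersson
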