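import Mathlib.NumberTheory.ModularForms.CongruenceSubgroups
import Mathlib.NumberTheory.ModularForms.Petersson
import Mathlib.NumberTheory.Modular
import Mathlib.Analysis.Complex.UpperHalfPlane.Measure
import Mathlib.MeasureTheory.Integral.Average
import Mathlib.Analysis.SpecialFunctions.ImproperIntegrals

/-!
# Normalised averages of invariant functions over modular curves

`pavg Φ` is the mean value (for the hyperbolic measure) of a function `Φ` on the upper half plane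
invariant under a finite index subgroup `Γ` of `SL(2, ℤ)`.  It does not depend on `Γ`
(`pavg_eq`) and is invariant under `GL(2, ℚ)` (`pavg_comp_smul`).

Instead of fundamental domains we use weights: measurable `w ≥ 0` with
`∑' γ : Γ, w (γ • τ) = c` almost everywhere.
-/

noncomputable section

open MeasureTheory UpperHalfPlane Matrix.SpecialLinearGroup CongruenceSubgroup
open scoped MatrixGroups ENNReal Modular

namespace Fermat.Agent.Petersson

theorem countable_SL2Z : Countable SL(2, ℤ) := by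
  have : Countable (Matrix (Fin 2) (Fin 2) ℤ) := inferInstanceAs (Countable (Fin 2 → Fin 2 → ℤ))
  exact Subtype.countable

attribute [local instance] countable_SL2Z

theorem measurable_smul_SL (g : SL(2, ℤ)) : Measurable fun τ : ℍ => g • τ :=
  measurable_const_smul (mapGL ℝ g : GL (Fin 2) ℝ)

theorem measurePreserving_smul_SL (g : SL(2, ℤ)) :
    MeasurePreserving (fun τ : ℍ => g • τ) volume volume :=
  measurePreserving_smul (mapGL ℝ g : GL (Fin 2) ℝ) (volume : Measure ℍ)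

theorem lintegral_smul_SL (g : SL(2, ℤ)) {f : ℍ → ℝ≥0∞} (hf : Measurable f) :
    ∫⁻ τ, f (g • τ) = ∫⁻ τ, f τ :=
  (measurePreserving_smul_SL g).lintegral_comp hf

theorem mem_conjGL' {Γ : Subgroup SL(2, ℤ)} {g : GL (Fin 2) ℝ} {x : SL(2, ℤ)} :
    x ∈ conjGL Γ g ↔ ∃ y ∈ Γ, (mapGL ℝ y : GL (Fin 2) ℝ) = g * mapGL ℝ x * g⁻¹ :=
  mem_conjGL

theorem ae_smul_SL (g : SL(2, ℤ)) (p : ℍ → Prop) (h : ∀ᵐ τ : ℍ, p τ) : ∀ᵐ τ : ℍ, p (g • τ) :=
  (measurePreserving_smul_SL g).quasiMeasurePreserving.ae h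

/-! ### Null and finite sets -/

theorem volume_eq_zero_of_image {s : Set ℍ} (h : volume (UpperHalfPlane.coe '' s) = 0) :
    volume s = 0 := by
  rw [volume_eq_lintegral]
  exact setLIntegral_measure_zero _ _ h

theorem volume_complex_re_eq (c : ℝ) : volume {z : ℂ | z.re = c} = 0 := by
  have h := Complex.volume_preserving_equiv_real_prod.measure_preimage
    (s := ({c} : Set ℝ) ×ˢ Set.univ)
    ((measurableSet_singleton c).prod MeasurableSet.univ).nullMeasurableSet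
  rw [Measure.volume_eq_prod, Measure.prod_prod, Real.volume_singleton, zero_mul] at h
  exact measure_mono_null (fun z hz => by simpa using hz) h

theorem volume_fd_diff_fdo : volume (𝒟 \ 𝒟ᵒ : Set ℍ) = 0 := by
  apply volume_eq_zero_of_image
  have h0 : volume ({z : ℂ | z.re = 1/2} ∪ {z : ℂ | z.re = -(1/2)} ∪ Metric.sphere (0 : ℂ) 1) = 0 := by
    simp only [measure_union_null_iff]
    exact ⟨⟨volume_complex_re_eq _, volume_complex_re_eq _⟩,
      Measure.addHaar_sphere_of_ne_zero _ _ one_ne_zero⟩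
  refine measure_mono_null ?_ h0
  rintro _ ⟨τ, ⟨⟨h1, h2⟩, h3⟩, rfl⟩
  rcases h1.lt_or_eq with h | h
  · rcases h2.lt_or_eq with h' | h'
    · exact absurd ⟨h, h'⟩ h3
    · rcases eq_or_eq_neg_of_abs_eq h' with e | e
      · left; left; simpa using e
      · left; right; simpa using e
  · right
    simpa [Complex.norm_def] using h.symm

theorem volume_fdo_ne_top : volume (𝒟ᵒ : Set ℍ) ≠ ∞ := by
  have hsub : UpperHalfPlane.coe '' 𝒟ᵒ ⊆
      Complex.measurableEquivRealProd ⁻¹' (Set.Icc (-1 : ℝ) 1 ×ˢ Set.Ioi (1/2 : ℝ)) := by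
    rintro _ ⟨τ, hτ, rfl⟩
    have h1 := ModularGroup.three_lt_four_mul_im_sq_of_mem_fdo hτ
    have h2 : |τ.re| < 1/2 := hτ.2
    have h3 := τ.im_pos
    rw [abs_lt] at h2
    simp only [Set.mem_preimage, Complex.measurableEquivRealProd_apply, Set.mem_prod, Set.mem_Icc,
      Set.mem_Ioi, coe_re, coe_im]
    exact ⟨⟨by linarith, by linarith⟩, by nlinarith⟩
  rw [volume_eq_lintegral]
  refine ((lintegral_mono_set hsub).trans_lt ?_).ne
  let F : ℝ × ℝ → ℝ≥0∞ := fun p => ↑((1 / ‖p.2‖₊) ^ 2 : NNReal)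
  have hF : Measurable F := by fun_prop
  rw [show (fun z : ℂ => (↑((1 / ‖z.im‖₊) ^ 2 : NNReal) : ℝ≥0∞))
      = fun z => F (Complex.measurableEquivRealProd z) from rfl,
    Complex.volume_preserving_equiv_real_prod.setLIntegral_comp_preimage
      (measurableSet_Icc.prod measurableSet_Ioi) hF, Measure.volume_eq_prod,
    ← Measure.prod_restrict, lintegral_prod _ hF.aemeasurable]
  simp only [F, lintegral_const, Measure.restrict_apply MeasurableSet.univ, Set.univ_inter]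
  refine ENNReal.mul_lt_top ?_ (by simp)
  have hint := (integrableOn_Ioi_rpow_of_lt (show (-2 : ℝ) < -1 by norm_num)
    (show (0 : ℝ) < 1/2 by norm_num)).lintegral_lt_top
  refine lt_of_le_of_lt (le_of_eq (setLIntegral_congr_fun measurableSet_Ioi fun y hy => ?_)) hint
  have hy0 : 0 < y := lt_trans (by norm_num) (Set.mem_Ioi.mp hy)
  simp only [ENNReal.ofReal, ENNReal.coe_inj]
  ext
  rw [Real.coe_toNNReal _ (by positivity), show (-2 : ℝ) = -((2 : ℕ) : ℝ) by norm_num,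
    Real.rpow_neg hy0.le, Real.rpow_natCast]
  simp [abs_of_pos hy0]

theorem volume_pos_of_isOpen {U : Set ℍ} (hU : IsOpen U) (hne : U.Nonempty) : 0 < volume U := by
  rw [volume_eq_lintegral]
  have ho : IsOpen (UpperHalfPlane.coe '' U) := isOpenEmbedding_coe.isOpenMap _ hU
  rw [setLIntegral_pos_iff (by fun_prop)]
  have hsub : UpperHalfPlane.coe '' U ⊆
      Function.support fun z : ℂ => (↑((1 / ‖z.im‖₊) ^ 2 : NNReal) : ℝ≥0∞) := by
    rintro _ ⟨τ, -, rfl⟩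
    simp [τ.im_ne_zero]
  rw [Set.inter_eq_right.mpr hsub]
  exact ho.measure_pos _ (hne.image _)

/-! ### Weights -/

/-- Half of the indicator function of the open fundamental domain. -/
def halfFd : ℍ → ℝ≥0∞ := (𝒟ᵒ : Set ℍ).indicator fun _ => 2⁻¹

theorem measurable_halfFd : Measurable halfFd :=
  measurable_const.indicator ModularGroup.isOpen_fdo.measurableSet

theorem tsum_halfFd : ∀ᵐ τ : ℍ, ∑' g : SL(2, ℤ), halfFd (g • τ) = 1 := by
  have h : ∀ᵐ τ : ℍ, ∀ g : SL(2, ℤ), g • τ ∉ (𝒟 \ 𝒟ᵒ : Set ℍ) := by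
    rw [ae_all_iff]
    exact fun g => ae_smul_SL g (fun x => x ∉ (𝒟 \ 𝒟ᵒ : Set ℍ))
      (measure_eq_zero_iff_ae_notMem.mp volume_fd_diff_fdo)
  filter_upwards [h] with τ hτ
  obtain ⟨g, hg⟩ := ModularGroup.exists_smul_mem_fd τ
  have hg' : g • τ ∈ 𝒟ᵒ := by
    by_contra hc
    exact hτ g ⟨hg, hc⟩
  have hne : g ≠ -g := by
    intro he
    have h2 := g.det_coe
    have e : ∀ i j, g i j = -(g i j) := fun i j => by
      conv_lhs => rw [he]
      simp
    rw [Matrix.det_fin_two] at h2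
    have := e 0 0; have := e 0 1
    rw [show g 0 0 = 0 by omega, show g 0 1 = 0 by omega] at h2
    simp at h2
  have h0 : ∀ h ∉ ({g, -g} : Finset SL(2, ℤ)), halfFd (h • τ) = 0 := by
    intro h hh
    refine Set.indicator_of_notMem (fun hc => ?_) _
    have : (h * g⁻¹) • (g • τ) ∈ 𝒟ᵒ := by rwa [smul_smul, inv_mul_cancel_right]
    rcases ModularGroup.eq_one_or_neg_one_of_mem_fdo_mem_fdo hg' this with e | e
    · exact hh (by simp [mul_inv_eq_one.mp e])
    · apply hh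
      have : h = -g := by
        rw [mul_inv_eq_iff_eq_mul] at e
        rw [e, neg_mul, one_mul]
      simp [this]
  have h1 : ∑' h : SL(2, ℤ), halfFd (h • τ) = ∑ h ∈ ({g, -g} : Finset SL(2, ℤ)), halfFd (h • τ) :=
    tsum_eq_sum h0
  have h2 : halfFd (g • τ) = 2⁻¹ := Set.indicator_of_mem hg' _
  rw [h1, Finset.sum_pair hne, ModularGroup.SL_neg_smul, h2, ENNReal.inv_two_add_inv_two]

/-- The standard weight of a subgroup of `SL(2, ℤ)`. -/
def stdWeight (Γ : Subgroup SL(2, ℤ)) (τ : ℍ) : ℝ≥0∞ :=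
  ∑' q : SL(2, ℤ) ⧸ Γ, halfFd (q.out • τ)

theorem measurable_stdWeight (Γ : Subgroup SL(2, ℤ)) : Measurable (stdWeight Γ) := by
  have : Countable (SL(2, ℤ) ⧸ Γ) := Quotient.mk''_surjective.countable
  exact Measurable.tsum fun q => measurable_halfFd.comp (measurable_smul_SL _)

theorem bijective_out_mul {G : Type*} [Group G] (H : Subgroup G) :
    Function.Bijective fun p : (G ⧸ H) × H => p.1.out * (p.2 : G) := by
  constructor
  · rintro ⟨q, x⟩ ⟨q', x'⟩ h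
    have hmk : ∀ (q : G ⧸ H) (x : H), ((q.out * (x : G) : G) : G ⧸ H) = q := fun q x => by
      rw [QuotientGroup.mk_mul_of_mem _ x.2, QuotientGroup.out_eq']
    obtain rfl : q = q' := by rw [← hmk q x, ← hmk q' x']; exact congrArg _ h
    simpa using h
  · intro g
    refine ⟨((g : G ⧸ H), ⟨(g : G ⧸ H).out⁻¹ * g, ?_⟩), by simp⟩
    rw [← QuotientGroup.eq, QuotientGroup.out_eq']

theorem tsum_stdWeight (Γ : Subgroup SL(2, ℤ)) :
    ∀ᵐ τ : ℍ, ∑' γ : Γ, stdWeight Γ ((γ : SL(2, ℤ)) • τ) = 1 := by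
  filter_upwards [tsum_halfFd] with τ hτ
  rw [← hτ, ← (Equiv.ofBijective _ (bijective_out_mul Γ)).tsum_eq, ENNReal.tsum_prod',
    ENNReal.tsum_comm]
  exact tsum_congr fun γ => tsum_congr fun q => by simp [mul_smul, -ModularGroup.sl_moeb]

theorem tsum_stdWeight_of_le {Γ' Γ : Subgroup SL(2, ℤ)} [Γ'.FiniteIndex] (hle : Γ' ≤ Γ) :
    ∀ᵐ τ : ℍ, ∑' γ : Γ, stdWeight Γ' ((γ : SL(2, ℤ)) • τ) =
      (Nat.card (Γ ⧸ Γ'.subgroupOf Γ) : ℝ≥0∞) := by
  have : Finite (Γ ⧸ Γ'.subgroupOf Γ) := Subgroup.finite_quotient_of_finiteIndex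
  have : Fintype (Γ ⧸ Γ'.subgroupOf Γ) := Fintype.ofFinite _
  have h : ∀ᵐ τ : ℍ, ∀ g : SL(2, ℤ),
      ∑' γ : Γ', stdWeight Γ' ((γ : SL(2, ℤ)) • g • τ) = 1 := by
    rw [ae_all_iff]
    exact fun g => ae_smul_SL g
      (fun x => ∑' γ : Γ', stdWeight Γ' ((γ : SL(2, ℤ)) • x) = 1) (tsum_stdWeight Γ')
  filter_upwards [h] with τ hτ
  let e1 : (Γ ⧸ Γ'.subgroupOf Γ) × Γ'.subgroupOf Γ ≃ Γ :=
    (Equiv.ofBijective _ (bijective_out_mul (Γ'.subgroupOf Γ))).trans (Equiv.inv Γ)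
  let e2 : Γ' ≃ Γ'.subgroupOf Γ :=
    (Equiv.inv Γ').trans (Subgroup.subgroupOfEquivOfLe hle).symm.toEquiv
  rw [← e1.tsum_eq (fun γ : Γ => stdWeight Γ' ((γ : SL(2, ℤ)) • τ)), ENNReal.tsum_prod',
    tsum_fintype]
  refine (Finset.sum_congr rfl (g := fun _ => (1 : ℝ≥0∞)) fun r _ => ?_).trans (by simp)
  have h1 := hτ (((r.out : Γ) : SL(2, ℤ)))⁻¹
  refine Eq.trans (Eq.trans (e2.tsum_eq _).symm (tsum_congr fun γ => ?_)) h1
  simp [e1, e2, Subgroup.subgroupOfEquivOfLe, mul_smul, -ModularGroup.sl_moeb]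

/-- Two weights for `Γ` induce proportional measures on `Γ`-invariant sets. -/
theorem setLIntegral_weight_comm {Γ : Subgroup SL(2, ℤ)} {w w' : ℍ → ℝ≥0∞}
    (hw : Measurable w) (hw' : Measurable w') {a b : ℝ≥0∞}
    (ha : ∀ᵐ τ : ℍ, ∑' γ : Γ, w ((γ : SL(2, ℤ)) • τ) = a)
    (hb : ∀ᵐ τ : ℍ, ∑' γ : Γ, w' ((γ : SL(2, ℤ)) • τ) = b)
    {A : Set ℍ} (hA : MeasurableSet A) (hinv : ∀ γ ∈ Γ, ∀ τ : ℍ, γ • τ ∈ A ↔ τ ∈ A) :
    b * ∫⁻ τ in A, w τ = a * ∫⁻ τ in A, w' τ := by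
  have key : ∀ u v : ℍ → ℝ≥0∞, Measurable u → Measurable v →
      ∀ c, (∀ᵐ τ : ℍ, ∑' γ : Γ, v ((γ : SL(2, ℤ)) • τ) = c) →
      c * ∫⁻ τ in A, u τ = ∑' γ : Γ, ∫⁻ τ in A, u τ * v ((γ : SL(2, ℤ)) • τ) := by
    intro u v hu hv c hc
    have hm : ∀ γ : Γ, AEMeasurable (fun τ => u τ * v ((γ : SL(2, ℤ)) • τ))
        (volume.restrict A) :=
      fun γ => (hu.mul (hv.comp (measurable_smul_SL _))).aemeasurable
    rw [← lintegral_tsum hm, ← lintegral_const_mul c hu]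
    refine lintegral_congr_ae ?_
    filter_upwards [ae_restrict_of_ae hc] with τ hτ
    rw [ENNReal.tsum_mul_left, hτ, mul_comm]
  rw [key w w' hw hw' b hb, key w' w hw' hw a ha, ← (Equiv.inv Γ).tsum_eq]
  refine tsum_congr fun γ => ?_
  rw [← lintegral_indicator hA, ← lintegral_indicator hA]
  have hm : Measurable (A.indicator fun τ : ℍ => w τ * w' ((γ : SL(2, ℤ))⁻¹ • τ)) :=
    (hw.mul (hw'.comp (measurable_smul_SL _))).indicator hA
  refine (lintegral_smul_SL (γ : SL(2, ℤ)) hm).symm.trans (lintegral_congr fun τ => ?_)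
  have := hinv _ γ.2 τ
  simp only [Set.indicator, smul_smul, inv_mul_cancel, one_smul, mul_comm]
  by_cases hτA : τ ∈ A
  · rw [if_pos hτA, if_pos (this.mpr hτA)]
  · rw [if_neg hτA, if_neg (this.not.mpr hτA)]

/-! ### Averages -/

/-- The measure with density `stdWeight Γ`. -/
def avgMeasure (Γ : Subgroup SL(2, ℤ)) : Measure ℍ := volume.withDensity (stdWeight Γ)

theorem avgMeasure_univ (Γ : Subgroup SL(2, ℤ)) [Γ.FiniteIndex] :
    avgMeasure Γ Set.univ = Nat.card (SL(2, ℤ) ⧸ Γ) * (2⁻¹ * volume (𝒟ᵒ : Set ℍ)) := by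
  have : Fintype (SL(2, ℤ) ⧸ Γ) := Fintype.ofFinite _
  rw [avgMeasure, withDensity_apply _ MeasurableSet.univ, Measure.restrict_univ]
  unfold stdWeight
  simp only [tsum_fintype]
  rw [lintegral_finsetSum (f := fun (q : SL(2, ℤ) ⧸ Γ) τ => halfFd (q.out • τ)) Finset.univ
    fun q _ => measurable_halfFd.comp (measurable_smul_SL _)]
  simp only [lintegral_smul_SL _ measurable_halfFd]
  simp [halfFd, lintegral_indicator_const ModularGroup.isOpen_fdo.measurableSet]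

theorem isFiniteMeasure_avgMeasure (Γ : Subgroup SL(2, ℤ)) [Γ.FiniteIndex] :
    IsFiniteMeasure (avgMeasure Γ) := ⟨by
  rw [avgMeasure_univ]
  exact ENNReal.mul_lt_top (by simp) (ENNReal.mul_lt_top (by simp) volume_fdo_ne_top.lt_top)⟩

theorem avgMeasure_univ_ne_zero (Γ : Subgroup SL(2, ℤ)) [Γ.FiniteIndex] :
    avgMeasure Γ Set.univ ≠ 0 := by
  rw [avgMeasure_univ]
  have h2 : (ModularGroup.fdo).Nonempty :=
    ⟨⟨2 * Complex.I, by simp⟩, by norm_num [Complex.normSq_apply], by simp [← coe_re]⟩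
  refine mul_ne_zero (Nat.cast_ne_zero.mpr Subgroup.index_ne_zero_of_finite) (mul_ne_zero ?_ ?_)
  · simp
  · exact (volume_pos_of_isOpen ModularGroup.isOpen_fdo h2).ne'

theorem average_eq_of_map {ν ν' : Measure ℍ} {Φ : ℍ → ℂ} (hΦ : Measurable Φ) {c : ℝ≥0∞}
    (hc : c ≠ 0) (hc' : c ≠ ∞)
    (h : ∀ B : Set ℂ, MeasurableSet B → ν (Φ ⁻¹' B) = c * ν' (Φ ⁻¹' B)) :
    ⨍ τ, Φ τ ∂ν = ⨍ τ, Φ τ ∂ν' := by
  have hmap : ν.map Φ = c • ν'.map Φ := by
    ext B hB
    simp [Measure.map_apply hΦ hB, h B hB]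
  have huniv : ν Set.univ = c * ν' Set.univ := by simpa using h Set.univ MeasurableSet.univ
  have hi : ∀ μ : Measure ℍ, ∫ τ, Φ τ ∂μ = ∫ y, y ∂(μ.map Φ) := fun μ =>
    (integral_map hΦ.aemeasurable aestronglyMeasurable_id).symm
  rw [average_eq, average_eq, hi ν, hi ν', hmap, integral_smul_measure, measureReal_def,
    measureReal_def, huniv, ENNReal.toReal_mul, smul_smul]
  congr 1
  have : c.toReal ≠ 0 := ENNReal.toReal_ne_zero.mpr ⟨hc, hc'⟩
  rw [mul_inv, mul_comm c.toReal⁻¹, mul_assoc, inv_mul_cancel₀ this, mul_one]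

/-- The subgroup of `SL(2, ℤ)` fixing a function. -/
def invGroup (Φ : ℍ → ℂ) : Subgroup SL(2, ℤ) where
  carrier := {g | ∀ τ : ℍ, Φ (g • τ) = Φ τ}
  mul_mem' {a b} ha hb τ := by rw [mul_smul, ha, hb]
  one_mem' τ := by rw [one_smul]
  inv_mem' {a} ha τ := by
    have := ha (a⁻¹ • τ)
    rwa [smul_inv_smul, eq_comm] at this

theorem mem_invGroup {Φ : ℍ → ℂ} {g : SL(2, ℤ)} :
    g ∈ invGroup Φ ↔ ∀ τ : ℍ, Φ (g • τ) = Φ τ := Iff.rfl

/-- The mean value of a function invariant under a finite index subgroup of `SL(2, ℤ)`. -/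
def pavg (Φ : ℍ → ℂ) : ℂ := ⨍ τ, Φ τ ∂(avgMeasure (invGroup Φ))

/-- `pavg` may be computed with any finite index subgroup leaving `Φ` invariant. -/
theorem pavg_eq {Φ : ℍ → ℂ} (hΦ : Measurable Φ) (Γ : Subgroup SL(2, ℤ)) [Γ.FiniteIndex]
    (hle : Γ ≤ invGroup Φ) : pavg Φ = ⨍ τ, Φ τ ∂(avgMeasure Γ) := by
  symm
  have : Finite ((invGroup Φ) ⧸ Γ.subgroupOf (invGroup Φ)) :=
    Subgroup.finite_quotient_of_finiteIndex
  refine average_eq_of_map hΦ (c := (Nat.card ((invGroup Φ) ⧸ Γ.subgroupOf (invGroup Φ)) : ℝ≥0∞))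
    (Nat.cast_ne_zero.mpr Nat.card_pos.ne') (ENNReal.natCast_ne_top _) fun B hB => ?_
  have := setLIntegral_weight_comm (measurable_stdWeight Γ) (measurable_stdWeight (invGroup Φ))
    (tsum_stdWeight_of_le hle) (tsum_stdWeight _) (hΦ hB)
    (fun γ hγ τ => by simp only [Set.mem_preimage, mem_invGroup.mp hγ τ])
  simp only [avgMeasure, withDensity_apply _ (hΦ hB)]
  simpa using this

/-- An element of `GL(2, ℝ)` with rational entries. -/
def IsRatGL (α : GL (Fin 2) ℝ) : Prop :=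
  ∃ g : GL (Fin 2) ℚ, Matrix.GeneralLinearGroup.map (Rat.castHom ℝ) g = α

theorem IsRatGL.inv {α : GL (Fin 2) ℝ} (h : IsRatGL α) : IsRatGL α⁻¹ := by
  obtain ⟨g, rfl⟩ := h
  exact ⟨g⁻¹, map_inv _ g⟩

theorem IsRatGL.mul {α β : GL (Fin 2) ℝ} (h : IsRatGL α) (h' : IsRatGL β) : IsRatGL (α * β) := by
  obtain ⟨g, rfl⟩ := h
  obtain ⟨g', rfl⟩ := h'
  exact ⟨g * g', map_mul _ g g'⟩

theorem IsRatGL.finiteIndex_conjGL {α : GL (Fin 2) ℝ} (hα : IsRatGL α) (Γ : Subgroup SL(2, ℤ))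
    [Γ.FiniteIndex] : (conjGL Γ α).FiniteIndex := by
  obtain ⟨g, rfl⟩ := hα
  have := Subgroup.IsArithmetic.conj (Γ.map (mapGL ℝ)) g⁻¹
  rw [map_inv] at this
  exact Subgroup.IsArithmetic.finiteIndex_comap _

/-- Invariance of the mean value under rational changes of variable. -/
theorem pavg_comp_smul {Φ : ℍ → ℂ} (hΦ : Measurable Φ) {α : GL (Fin 2) ℝ} (hα : IsRatGL α)
    [(invGroup Φ).FiniteIndex] [(invGroup fun τ => Φ (α • τ)).FiniteIndex] :
    pavg (fun τ => Φ (α • τ)) = pavg Φ := by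
  set Ψ : ℍ → ℂ := fun τ => Φ (α • τ)
  have hΨ : Measurable Ψ := hΦ.comp (measurable_const_smul α)
  have := hα.finiteIndex_conjGL (invGroup Φ)
  set Γ' : Subgroup SL(2, ℤ) := invGroup Ψ ⊓ conjGL (invGroup Φ) α
  have : (conjGL Γ' α⁻¹).FiniteIndex := hα.inv.finiteIndex_conjGL Γ'
  set Γ'' : Subgroup SL(2, ℤ) := conjGL Γ' α⁻¹
  have hex : ∀ x ∈ Γ'', ∃ y ∈ Γ', (mapGL ℝ x : GL (Fin 2) ℝ) = α * mapGL ℝ y * α⁻¹ := by
    intro x hx
    obtain ⟨y, hy, h⟩ := mem_conjGL'.mp hx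
    refine ⟨y, hy, ?_⟩
    rw [h]; group
  have hle : Γ'' ≤ invGroup Φ := by
    intro x hx
    obtain ⟨y, hy, hxy⟩ := hex x hx
    obtain ⟨z, hz, hzy⟩ := mem_conjGL'.mp hy.2
    obtain rfl : z = x := mapGL_injective (by rw [hzy, hxy])
    exact hz
  rw [pavg_eq hΨ Γ' inf_le_left, pavg_eq hΦ Γ'' hle]
  set w : ℍ → ℝ≥0∞ := fun τ => stdWeight Γ' (α⁻¹ • τ)
  have hw : Measurable w := (measurable_stdWeight Γ').comp (measurable_const_smul α⁻¹)
  have hwsum : ∀ᵐ τ : ℍ, ∑' x : Γ'', w ((x : SL(2, ℤ)) • τ) = 1 := by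
    filter_upwards [(measurePreserving_smul α⁻¹ (volume : Measure ℍ)).quasiMeasurePreserving.ae
      (tsum_stdWeight Γ')] with τ hτ
    rw [← hτ]
    let e : Γ'' → Γ' := fun x => ⟨(hex x x.2).choose, (hex x x.2).choose_spec.1⟩
    have he : ∀ x : Γ'', (mapGL ℝ (x : SL(2, ℤ)) : GL (Fin 2) ℝ)
        = α * mapGL ℝ (e x : SL(2, ℤ)) * α⁻¹ := fun x => (hex x x.2).choose_spec.2
    have hbij : Function.Bijective e := by
      refine ⟨fun x x' h => Subtype.ext (mapGL_injective (S := ℝ) ?_), fun y => ?_⟩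
      · rw [he x, he x', h]
      · obtain ⟨z, hz, hzy⟩ := mem_conjGL'.mp y.2.2
        have hzΓ : z ∈ Γ'' := mem_conjGL'.mpr ⟨y, y.2, by rw [hzy]; group⟩
        refine ⟨⟨z, hzΓ⟩, Subtype.ext (mapGL_injective (S := ℝ) ?_)⟩
        have := he ⟨z, hzΓ⟩
        rw [hzy] at this
        exact (mul_left_cancel (mul_right_cancel this)).symm
    rw [← (Equiv.ofBijective e hbij).tsum_eq]
    refine tsum_congr fun x => ?_
    simp only [w, Equiv.ofBijective_apply]
    congr 1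
    change α⁻¹ • ((mapGL ℝ (x : SL(2, ℤ)) : GL (Fin 2) ℝ) • τ)
      = (mapGL ℝ (e x : SL(2, ℤ)) : GL (Fin 2) ℝ) • α⁻¹ • τ
    rw [he x, mul_smul, mul_smul, inv_smul_smul]
  have hnu : ∀ B : Set ℂ, MeasurableSet B →
      avgMeasure Γ' (Ψ ⁻¹' B) = avgMeasure Γ'' (Φ ⁻¹' B) := by
    intro B hB
    have h1 := setLIntegral_weight_comm hw (measurable_stdWeight Γ'') hwsum (tsum_stdWeight Γ'')
      (hΦ hB) (fun γ hγ τ => by simp only [Set.mem_preimage, mem_invGroup.mp (hle hγ) τ])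
    rw [one_mul, one_mul] at h1
    rw [avgMeasure, avgMeasure, withDensity_apply _ (hΦ hB), withDensity_apply _ (hΨ hB), ← h1,
      ← lintegral_indicator (hΦ hB), ← lintegral_indicator (hΨ hB),
      ← (measurePreserving_smul α (volume : Measure ℍ)).lintegral_comp (hw.indicator (hΦ hB))]
    refine lintegral_congr fun τ => ?_
    simp [Set.indicator, w, Ψ, Set.mem_preimage]
    rfl
  have h1 : Measure.map Ψ (avgMeasure Γ') = Measure.map Φ (avgMeasure Γ'') := by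
    ext B hB
    rw [Measure.map_apply hΨ hB, Measure.map_apply hΦ hB, hnu B hB]
  have h2 : avgMeasure Γ' Set.univ = avgMeasure Γ'' Set.univ := by
    simpa using hnu Set.univ MeasurableSet.univ
  rw [average_eq, average_eq, measureReal_def, measureReal_def, h2,
    ← integral_map hΨ.aemeasurable (f := fun y => y) aestronglyMeasurable_id,
    ← integral_map hΦ.aemeasurable (f := fun y => y) aestronglyMeasurable_id, h1]

end Fermat.Agent.Petersson
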