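import Fermat.Agent.Petersson.Average

/-!
# The Petersson pairing on functions

`pet k F G` is the normalised Petersson product of two nice functions (`IsNice`): continuous, with
bounded invariant norm, and invariant in weight `k` under a finite index subgroup of `SL(2, ℤ)`.
-/

noncomputable section

open MeasureTheory UpperHalfPlane Matrix.SpecialLinearGroup CongruenceSubgroup
open scoped MatrixGroups ENNReal ModularForm ComplexConjugate

namespace Fermat.Agent.Petersson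

attribute [local instance] countable_SL2Z

variable {k : ℤ} {F G H : ℍ → ℂ} {α β : GL (Fin 2) ℝ}

/-- The normalised Petersson product. -/
def pet (k : ℤ) (F G : ℍ → ℂ) : ℂ := pavg (petersson k F G)

/-- Functions for which the Petersson product behaves well. -/
structure IsNice (k : ℤ) (F : ℍ → ℂ) : Prop where
  continuous : Continuous F
  exists_bound : ∃ C, ∀ τ, ‖petersson k F F τ‖ ≤ C
  exists_group : ∃ Γ : Subgroup SL(2, ℤ), Γ.FiniteIndex ∧ ∀ γ ∈ Γ, F ∣[k] γ = F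

theorem norm_petersson (k : ℤ) (F G : ℍ → ℂ) (τ : ℍ) :
    ‖petersson k F G τ‖ = ‖F τ‖ * ‖G τ‖ * τ.im ^ k := by
  simp [petersson, abs_of_pos τ.im_pos]

theorem IsNice.zero (k : ℤ) : IsNice k (0 : ℍ → ℂ) :=
  ⟨continuous_const, ⟨0, fun τ => by simp [petersson]⟩,
    ⊤, inferInstance, fun γ _ => SlashAction.zero_slash k γ⟩

theorem IsNice.add (hF : IsNice k F) (hG : IsNice k G) : IsNice k (F + G) := by
  obtain ⟨Γ, hΓ, h⟩ := hF.exists_group
  obtain ⟨Δ, hΔ, h'⟩ := hG.exists_group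
  obtain ⟨C, hC⟩ := hF.exists_bound
  obtain ⟨D, hD⟩ := hG.exists_bound
  refine ⟨hF.continuous.add hG.continuous, ⟨2 * (C + D), fun τ => ?_⟩,
    Γ ⊓ Δ, inferInstance, fun γ hγ => ?_⟩
  · have h1 := hC τ
    have h2 := hD τ
    rw [norm_petersson] at h1 h2 ⊢
    have hp : (0 : ℝ) ≤ τ.im ^ k := zpow_nonneg τ.im_pos.le k
    calc ‖(F + G) τ‖ * ‖(F + G) τ‖ * τ.im ^ k
        ≤ (‖F τ‖ + ‖G τ‖) * (‖F τ‖ + ‖G τ‖) * τ.im ^ k := by
          gcongr <;> exact norm_add_le _ _
      _ ≤ 2 * (‖F τ‖ * ‖F τ‖ * τ.im ^ k + ‖G τ‖ * ‖G τ‖ * τ.im ^ k) := by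
          nlinarith [mul_nonneg (sq_nonneg (‖F τ‖ - ‖G τ‖)) hp]
      _ ≤ 2 * (C + D) := by gcongr
  · rw [SlashAction.add_slash, h γ hγ.1, h' γ hγ.2]

theorem IsNice.const_smul (hF : IsNice k F) (c : ℂ) : IsNice k (c • F) := by
  obtain ⟨Γ, hΓ, h⟩ := hF.exists_group
  obtain ⟨C, hC⟩ := hF.exists_bound
  refine ⟨hF.continuous.const_smul c, ⟨‖c‖ * ‖c‖ * C, fun τ => ?_⟩, Γ, hΓ, fun γ hγ => ?_⟩
  · have h1 := hC τ
    rw [norm_petersson] at h1 ⊢
    calc ‖(c • F) τ‖ * ‖(c • F) τ‖ * τ.im ^ k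
        = ‖c‖ * ‖c‖ * (‖F τ‖ * ‖F τ‖ * τ.im ^ k) := by simp; ring
      _ ≤ ‖c‖ * ‖c‖ * C := by gcongr
  · rw [ModularForm.SL_smul_slash, h γ hγ]

theorem IsNice.sum {ι : Type*} (s : Finset ι) {f : ι → ℍ → ℂ} (h : ∀ i ∈ s, IsNice k (f i)) :
    IsNice k (∑ i ∈ s, f i) :=
  Finset.sum_induction f _ (fun _ _ => IsNice.add) (IsNice.zero k) h

theorem σ_apply_of_det_pos (h : 0 < α.det.val) (z : ℂ) : σ α z = z := by
  simp only [σ, if_pos h]
  rfl

theorem IsNice.slash (hF : IsNice k F) (hα : IsRatGL α) (hdet : 0 < α.det.val) :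
    IsNice k (F ∣[k] α) := by
  obtain ⟨Γ, hΓ, h⟩ := hF.exists_group
  obtain ⟨C, hC⟩ := hF.exists_bound
  refine ⟨?_, ⟨|α.det.val| ^ (k - 2) * C, fun τ => ?_⟩, conjGL Γ α, hα.finiteIndex_conjGL Γ,
    fun x hx => ?_⟩
  · have he : F ∣[k] α = fun τ : ℍ =>
        F (α • τ) * ((|α.det.val| : ℝ) : ℂ) ^ (k - 1) * denom α τ ^ (-k) := by
      funext τ
      rw [ModularForm.slash_apply, σ_apply_of_det_pos hdet]
    rw [he]
    refine ((hF.continuous.comp (continuous_const_smul α)).mul continuous_const).mul ?_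
    exact Continuous.zpow₀ (by unfold denom; fun_prop) _ fun τ => Or.inl (denom_ne_zero α τ)
  · rw [petersson_slash, norm_mul, norm_zpow, norm_σ, Complex.norm_real, Real.norm_eq_abs,
      abs_abs]
    exact mul_le_mul_of_nonneg_left (hC _) (zpow_nonneg (abs_nonneg _) _)
  · obtain ⟨y, hy, hy'⟩ := mem_conjGL'.mp hx
    change (F ∣[k] α) ∣[k] (mapGL ℝ x : GL (Fin 2) ℝ) = F ∣[k] α
    rw [← SlashAction.slash_mul,
      show α * (mapGL ℝ x : GL (Fin 2) ℝ) = mapGL ℝ y * α by rw [hy']; group,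
      SlashAction.slash_mul]
    exact congrArg (· ∣[k] α) (h y hy)

theorem continuous_petersson (hF : IsNice k F) (hG : IsNice k G) :
    Continuous (petersson k F G) :=
  petersson_continuous k hF.continuous hG.continuous

theorem exists_bound_petersson (hF : IsNice k F) (hG : IsNice k G) :
    ∃ C, ∀ τ, ‖petersson k F G τ‖ ≤ C := by
  obtain ⟨C, hC⟩ := hF.exists_bound
  obtain ⟨D, hD⟩ := hG.exists_bound
  refine ⟨C + D, fun τ => ?_⟩
  have h1 := hC τ
  have h2 := hD τ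
  rw [norm_petersson] at h1 h2 ⊢
  have hp : (0 : ℝ) ≤ τ.im ^ k := zpow_nonneg τ.im_pos.le k
  nlinarith [mul_nonneg (sq_nonneg (‖F τ‖ - ‖G τ‖)) hp,
    mul_nonneg (mul_nonneg (norm_nonneg (F τ)) (norm_nonneg (G τ))) hp]

theorem le_invGroup_petersson {Γ : Subgroup SL(2, ℤ)} (hF : ∀ γ ∈ Γ, F ∣[k] γ = F)
    (hG : ∀ γ ∈ Γ, G ∣[k] γ = G) : Γ ≤ invGroup (petersson k F G) := by
  intro γ hγ
  rw [mem_invGroup]
  intro τ
  rw [← petersson_slash_SL, hF γ hγ, hG γ hγ]

theorem finiteIndex_invGroup_petersson (hF : IsNice k F) (hG : IsNice k G) :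
    (invGroup (petersson k F G)).FiniteIndex := by
  obtain ⟨Γ, hΓ, h⟩ := hF.exists_group
  obtain ⟨Δ, hΔ, h'⟩ := hG.exists_group
  exact Subgroup.finiteIndex_of_le (le_invGroup_petersson (Γ := Γ ⊓ Δ)
    (fun γ hγ => h γ hγ.1) (fun γ hγ => h' γ hγ.2))

theorem integrable_petersson (hF : IsNice k F) (hG : IsNice k G) (Γ : Subgroup SL(2, ℤ))
    [Γ.FiniteIndex] : Integrable (petersson k F G) (avgMeasure Γ) := by
  have := isFiniteMeasure_avgMeasure Γ
  obtain ⟨C, hC⟩ := exists_bound_petersson hF hG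
  exact Integrable.of_bound (continuous_petersson hF hG).aestronglyMeasurable C
    (Filter.Eventually.of_forall hC)

theorem pet_eq_average (hF : IsNice k F) (hG : IsNice k G) (Γ : Subgroup SL(2, ℤ))
    [Γ.FiniteIndex] (h : ∀ γ ∈ Γ, F ∣[k] γ = F) (h' : ∀ γ ∈ Γ, G ∣[k] γ = G) :
    pet k F G = ⨍ τ, petersson k F G τ ∂(avgMeasure Γ) :=
  pavg_eq (continuous_petersson hF hG).measurable Γ (le_invGroup_petersson h h')

theorem pet_conj_symm (hF : IsNice k F) (hG : IsNice k G) : conj (pet k G F) = pet k F G := by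
  obtain ⟨Γ, hΓ, h⟩ := hF.exists_group
  obtain ⟨Δ, hΔ, h'⟩ := hG.exists_group
  have hl : ∀ γ ∈ Γ ⊓ Δ, F ∣[k] γ = F := fun γ hγ => h γ hγ.1
  have hr : ∀ γ ∈ Γ ⊓ Δ, G ∣[k] γ = G := fun γ hγ => h' γ hγ.2
  rw [pet_eq_average hF hG _ hl hr, pet_eq_average hG hF _ hr hl, average_eq, average_eq,
    Complex.real_smul, Complex.real_smul, map_mul, Complex.conj_ofReal, ← integral_conj]
  congr 1
  exact integral_congr_ae (Filter.Eventually.of_forall fun τ => by simp [petersson_symm k F G τ])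

theorem pet_add_left (hF : IsNice k F) (hG : IsNice k G) (hH : IsNice k H) :
    pet k (F + G) H = pet k F H + pet k G H := by
  obtain ⟨Γ, hΓ, h⟩ := hF.exists_group
  obtain ⟨Δ, hΔ, h'⟩ := hG.exists_group
  obtain ⟨E, hE, h''⟩ := hH.exists_group
  have hl : ∀ γ ∈ Γ ⊓ Δ ⊓ E, F ∣[k] γ = F := fun γ hγ => h γ hγ.1.1
  have hm : ∀ γ ∈ Γ ⊓ Δ ⊓ E, G ∣[k] γ = G := fun γ hγ => h' γ hγ.1.2
  have hr : ∀ γ ∈ Γ ⊓ Δ ⊓ E, H ∣[k] γ = H := fun γ hγ => h'' γ hγ.2
  have hlm : ∀ γ ∈ Γ ⊓ Δ ⊓ E, (F + G) ∣[k] γ = F + G := fun γ hγ => by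
    rw [SlashAction.add_slash, hl γ hγ, hm γ hγ]
  rw [pet_eq_average (hF.add hG) hH _ hlm hr, pet_eq_average hF hH _ hl hr,
    pet_eq_average hG hH _ hm hr, average_eq, average_eq, average_eq, ← smul_add,
    ← integral_add (integrable_petersson hF hH _) (integrable_petersson hG hH _)]
  congr 1
  exact integral_congr_ae (Filter.Eventually.of_forall fun τ => by simp [petersson, add_mul])

theorem pet_smul_left (hF : IsNice k F) (hG : IsNice k G) (c : ℂ) :
    pet k (c • F) G = conj c * pet k F G := by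
  obtain ⟨Γ, hΓ, h⟩ := hF.exists_group
  obtain ⟨Δ, hΔ, h'⟩ := hG.exists_group
  have hl : ∀ γ ∈ Γ ⊓ Δ, F ∣[k] γ = F := fun γ hγ => h γ hγ.1
  have hl' : ∀ γ ∈ Γ ⊓ Δ, (c • F) ∣[k] γ = c • F := fun γ hγ => by
    rw [ModularForm.SL_smul_slash, hl γ hγ]
  have hr : ∀ γ ∈ Γ ⊓ Δ, G ∣[k] γ = G := fun γ hγ => h' γ hγ.2
  rw [pet_eq_average (hF.const_smul c) hG _ hl' hr, pet_eq_average hF hG _ hl hr,
    average_eq, average_eq, ← smul_eq_mul (conj c), smul_comm, smul_eq_mul, ← integral_const_mul]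
  congr 1
  exact integral_congr_ae (Filter.Eventually.of_forall fun τ => by simp [petersson]; ring)

theorem pet_add_right (hF : IsNice k F) (hG : IsNice k G) (hH : IsNice k H) :
    pet k F (G + H) = pet k F G + pet k F H := by
  rw [← pet_conj_symm hF (hG.add hH), pet_add_left hG hH hF, map_add, pet_conj_symm hF hG,
    pet_conj_symm hF hH]

theorem pet_smul_right (hF : IsNice k F) (hG : IsNice k G) (c : ℂ) :
    pet k F (c • G) = c * pet k F G := by
  rw [← pet_conj_symm hF (hG.const_smul c), pet_smul_left hG hF, map_mul, pet_conj_symm hF hG,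
    Complex.conj_conj]

theorem pet_zero_left (hG : IsNice k G) : pet k 0 G = 0 := by
  simpa using pet_smul_left (IsNice.zero k) hG 0

theorem pet_zero_right (hF : IsNice k F) : pet k F 0 = 0 := by
  simpa using pet_smul_right hF (IsNice.zero k) 0

theorem pet_sum_left {ι : Type*} (s : Finset ι) {f : ι → ℍ → ℂ} (h : ∀ i ∈ s, IsNice k (f i))
    (hG : IsNice k G) : pet k (∑ i ∈ s, f i) G = ∑ i ∈ s, pet k (f i) G := by
  classical
  induction s using Finset.induction_on with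
  | empty => simpa using pet_zero_left hG
  | insert i t hi ih =>
    rw [Finset.sum_insert hi, Finset.sum_insert hi,
      pet_add_left (h i (Finset.mem_insert_self i t))
        (IsNice.sum t fun j hj => h j (Finset.mem_insert_of_mem hj)) hG,
      ih fun j hj => h j (Finset.mem_insert_of_mem hj)]

theorem pet_sum_right {ι : Type*} (s : Finset ι) {f : ι → ℍ → ℂ} (h : ∀ i ∈ s, IsNice k (f i))
    (hF : IsNice k F) : pet k F (∑ i ∈ s, f i) = ∑ i ∈ s, pet k F (f i) := by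
  rw [← pet_conj_symm hF (IsNice.sum s h), pet_sum_left s h hF, map_sum]
  exact Finset.sum_congr rfl fun i hi => pet_conj_symm hF (h i hi)

/-- Slashing both arguments by a rational matrix of positive determinant. -/
theorem pet_slash_slash (hF : IsNice k F) (hG : IsNice k G) (hα : IsRatGL α)
    (hdet : 0 < α.det.val) :
    pet k (F ∣[k] α) (G ∣[k] α) = (α.det.val : ℂ) ^ (k - 2) * pet k F G := by
  have hF' := hF.slash hα hdet
  have hG' := hG.slash hα hdet
  have := finiteIndex_invGroup_petersson hF hG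
  have := finiteIndex_invGroup_petersson hF' hG'
  set c : ℂ := (α.det.val : ℂ) ^ (k - 2)
  have hc : c ≠ 0 := zpow_ne_zero _ (Complex.ofReal_ne_zero.mpr hdet.ne')
  have he : petersson k (F ∣[k] α) (G ∣[k] α) = fun τ => c * petersson k F G (α • τ) := by
    funext τ
    rw [petersson_slash, σ_apply_of_det_pos hdet, abs_of_pos hdet]
  have hgp : invGroup (fun τ => petersson k F G (α • τ))
      = invGroup (petersson k (F ∣[k] α) (G ∣[k] α)) := by
    ext g
    simp only [mem_invGroup, he, mul_right_inj' hc]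
  have : (invGroup fun τ => petersson k F G (α • τ)).FiniteIndex := by rw [hgp]; infer_instance
  rw [pet, pet, ← pavg_comp_smul (continuous_petersson hF hG).measurable hα, pavg, pavg, hgp, he,
    average_eq, average_eq, integral_const_mul, ← smul_eq_mul c, ← smul_eq_mul c, smul_comm]

theorem slash_scalar (k : ℤ) (u : ℝˣ) (F : ℍ → ℂ) :
    F ∣[k] (Matrix.GeneralLinearGroup.scalar (Fin 2) u : GL (Fin 2) ℝ)
      = ((u : ℝ) : ℂ) ^ (k - 2) • F := by
  funext τ
  have hu : ((u : ℝ) : ℂ) ≠ 0 := Complex.ofReal_ne_zero.mpr u.ne_zero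
  have hd : (Matrix.GeneralLinearGroup.scalar (Fin 2) u : GL (Fin 2) ℝ).det.val
      = (u : ℝ) * u := by
    simp [sq]
  have hσ : σ (Matrix.GeneralLinearGroup.scalar (Fin 2) u : GL (Fin 2) ℝ) (F τ) = F τ :=
    σ_apply_of_det_pos (by rw [hd]; exact mul_self_pos.mpr u.ne_zero) _
  rw [ModularForm.slash_apply, glScalar_smul, hσ, denom_scalar, hd,
    abs_of_nonneg (mul_self_nonneg _), Pi.smul_apply, smul_eq_mul, Complex.ofReal_mul, mul_zpow,
    mul_assoc, mul_assoc, ← zpow_add₀ hu, ← zpow_add₀ hu, mul_comm]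
  congr 2
  ring

/-- The adjoint of slashing by `α` is slashing by the adjugate of `α`. -/
theorem pet_slash_left (hF : IsNice k F) (hG : IsNice k G) (hα : IsRatGL α) (hβ : IsRatGL β)
    (hdet : 0 < α.det.val) (h : (β : Matrix (Fin 2) (Fin 2) ℝ) = (α : Matrix _ _ ℝ).adjugate) :
    pet k (F ∣[k] α) G = pet k F (G ∣[k] β) := by
  have hαβ : α * β = Matrix.GeneralLinearGroup.scalar (Fin 2) α.det := by
    ext1
    simp [h, Matrix.mul_adjugate, Matrix.smul_one_eq_diagonal]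
  have hdetβ : 0 < β.det.val := by
    have := congrArg Matrix.det h
    rw [Matrix.det_adjugate] at this
    simp only [Fintype.card_fin, Nat.add_one_sub_one, pow_one] at this
    rwa [Matrix.GeneralLinearGroup.val_det_apply, this, ← Matrix.GeneralLinearGroup.val_det_apply]
  have hdd : β.det.val = α.det.val := by
    have := congrArg Matrix.det h
    simpa [Matrix.det_adjugate] using this
  have h1 := pet_slash_slash (hF.slash hα hdet) hG hβ hdetβ
  rw [← SlashAction.slash_mul, hαβ, slash_scalar, pet_smul_left hF (hG.slash hβ hdetβ), hdd,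
    map_zpow₀, Complex.conj_ofReal] at h1
  exact (mul_left_cancel₀ (zpow_ne_zero _ (Complex.ofReal_ne_zero.mpr hdet.ne')) h1).symm

theorem pet_slash_right (hF : IsNice k F) (hG : IsNice k G) (hα : IsRatGL α) (hβ : IsRatGL β)
    (hdet : 0 < α.det.val) (h : (β : Matrix (Fin 2) (Fin 2) ℝ) = (α : Matrix _ _ ℝ).adjugate) :
    pet k F (G ∣[k] α) = pet k (F ∣[k] β) G := by
  have hdetβ : 0 < β.det.val := by
    have := congrArg Matrix.det h
    rw [Matrix.det_adjugate] at this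
    simp only [Fintype.card_fin, Nat.add_one_sub_one, pow_one] at this
    rwa [Matrix.GeneralLinearGroup.val_det_apply, this, ← Matrix.GeneralLinearGroup.val_det_apply]
  rw [← pet_conj_symm hF (hG.slash hα hdet), pet_slash_left hG hF hα hβ hdet h,
    pet_conj_symm (hF.slash hβ hdetβ) hG]

theorem petersson_self (k : ℤ) (F : ℍ → ℂ) (τ : ℍ) :
    petersson k F F τ = ((‖F τ‖ ^ 2 * τ.im ^ k : ℝ) : ℂ) := by
  simp [petersson, ← Complex.normSq_eq_conj_mul_self, Complex.normSq_eq_norm_sq]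

theorem pet_self_eq (hF : IsNice k F) (Γ : Subgroup SL(2, ℤ)) [Γ.FiniteIndex]
    (h : ∀ γ ∈ Γ, F ∣[k] γ = F) :
    pet k F F = ((⨍ τ, ‖F τ‖ ^ 2 * τ.im ^ k ∂(avgMeasure Γ) : ℝ) : ℂ) := by
  rw [pet_eq_average hF hF Γ h h, average_eq, average_eq]
  simp only [petersson_self]
  rw [integral_complex_ofReal]
  simp [Complex.real_smul]

theorem pet_self_nonneg (hF : IsNice k F) : 0 ≤ (pet k F F).re := by
  obtain ⟨Γ, hΓ, h⟩ := hF.exists_group
  rw [pet_self_eq hF Γ h, Complex.ofReal_re, average_eq]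
  exact smul_nonneg (inv_nonneg.mpr measureReal_nonneg)
    (integral_nonneg fun τ => mul_nonneg (sq_nonneg _) (zpow_nonneg τ.im_pos.le _))

theorem volume_eq_zero_of_avgMeasure_eq_zero {Γ : Subgroup SL(2, ℤ)} {A : Set ℍ}
    (hA : MeasurableSet A) (hinv : ∀ γ ∈ Γ, ∀ τ : ℍ, γ • τ ∈ A ↔ τ ∈ A)
    (h : avgMeasure Γ A = 0) : volume A = 0 := by
  rw [avgMeasure, withDensity_apply _ hA] at h
  have h1 : ∀ γ : Γ, ∫⁻ τ in A, stdWeight Γ ((γ : SL(2, ℤ)) • τ) = 0 := by
    intro γ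
    rw [← h, ← lintegral_indicator hA, ← lintegral_indicator hA]
    refine Eq.trans (lintegral_congr fun τ => ?_)
      (lintegral_smul_SL (γ : SL(2, ℤ)) ((measurable_stdWeight Γ).indicator hA))
    have := hinv _ γ.2 τ
    by_cases hτ : τ ∈ A
    · rw [Set.indicator_of_mem hτ, Set.indicator_of_mem (this.mpr hτ)]
    · rw [Set.indicator_of_notMem hτ, Set.indicator_of_notMem (this.not.mpr hτ)]
  rw [← setLIntegral_one, ← lintegral_congr_ae (ae_restrict_of_ae (tsum_stdWeight Γ)),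
    lintegral_tsum (f := fun (γ : Γ) (τ : ℍ) => stdWeight Γ ((γ : SL(2, ℤ)) • τ))
      fun γ => ((measurable_stdWeight Γ).comp (measurable_smul_SL _)).aemeasurable]
  exact ENNReal.tsum_eq_zero.mpr h1

theorem eq_zero_of_pet_self (hF : IsNice k F) (h0 : pet k F F = 0) : F = 0 := by
  obtain ⟨Γ, hΓ, h⟩ := hF.exists_group
  have := isFiniteMeasure_avgMeasure Γ
  rw [pet_self_eq hF Γ h, Complex.ofReal_eq_zero, average_eq] at h0
  set φ : ℍ → ℝ := fun τ => ‖F τ‖ ^ 2 * τ.im ^ k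
  have hφc : Continuous φ :=
    (hF.continuous.norm.pow 2).mul (continuous_im.zpow₀ k fun τ => Or.inl τ.im_ne_zero)
  have hφ0 : 0 ≤ φ := fun τ => mul_nonneg (sq_nonneg _) (zpow_nonneg τ.im_pos.le _)
  have hφi : Integrable φ (avgMeasure Γ) := by
    refine (integrable_petersson hF hF Γ).re.congr (Filter.Eventually.of_forall fun τ => ?_)
    simp only [petersson_self, φ, RCLike.re_to_complex, Complex.ofReal_re]
  have hint : ∫ τ, φ τ ∂(avgMeasure Γ) = 0 := by
    refine (smul_eq_zero.mp h0).resolve_left (inv_ne_zero ?_)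
    rw [measureReal_def]
    exact ENNReal.toReal_ne_zero.mpr ⟨avgMeasure_univ_ne_zero Γ, measure_ne_top _ _⟩
  have hae := (integral_eq_zero_iff_of_nonneg hφ0 hφi).mp hint
  have hopen : IsOpen {τ | φ τ ≠ 0} := isOpen_ne.preimage hφc
  have hinv : ∀ γ ∈ Γ, ∀ τ : ℍ, γ • τ ∈ {τ | φ τ ≠ 0} ↔ τ ∈ {τ | φ τ ≠ 0} := by
    intro γ hγ τ
    have := mem_invGroup.mp (le_invGroup_petersson h h hγ) τ
    rw [petersson_self, petersson_self, Complex.ofReal_inj] at this
    simp only [Set.mem_ofPred_eq, φ, this]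
  have hvol := volume_eq_zero_of_avgMeasure_eq_zero hopen.measurableSet hinv
    (by simpa [Filter.EventuallyEq, ae_iff] using hae)
  funext τ
  by_contra hne
  have hmem : φ τ ≠ 0 :=
    mul_ne_zero (pow_ne_zero _ (norm_ne_zero_iff.mpr hne)) (zpow_ne_zero _ τ.im_ne_zero)
  exact (volume_pos_of_isOpen hopen ⟨τ, hmem⟩).ne' hvol

end Fermat.Agent.Petersson
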